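import Fermat.Agent.S30x.Ev.H23_MatPsi

/-!
# W8 (S30), leaf (EV) (helper23): the eigenvector of a character of the Hecke algebra

* `h23e_det_zero` (Fitting): for a commutative ring `H` and an **injective** ring homomorphism
  `Ψ : H →+* Matrix (Fin n) (Fin n) ℤ`, every `n × n` determinant of "relation rows"
  `(Ψ(T)_{i j} - T δ_{i j})_i ∈ Hⁿ` vanishes.
* `h23e_left`, `h23e_right` : for every ring homomorphism `χ : H →+* E` to a field there is a
  non-zero left (right) common eigenvector of the matrices `Ψ T` with eigenvalues `χ T`.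
  No hypothesis on the characteristic, no finite-dimensional algebra is needed.
* `h23m_eigen_field`, `h23m_eigen`, `h23m_eigen_unit` : **(EV)** for the Hecke algebra
  `heckeAlgebra N 2 S` and the integer Hecke matrices `h23mT N ℓ` of `Λ`: a vector `w ≠ 0` over a
  domain `O` (with a unit coordinate if `O` is a discrete valuation ring) such that
  `∑ j, t_ℓ(i, j) w_j = χ(T_ℓ) w_i`.
-/

set_option autoImplicit false
set_option linter.style.haveILetI false

noncomputable section

namespace Fermat.Agent.S30x.Ev.H23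

open CongruenceSubgroup
open Fermat.Agent.S42x.Top.H23

section Abstract

variable {H : Type*} [CommRing H] {n : ℕ}

/-- If the rows of `R` are relations between the generators `e_i` of the `H`-module `ℤⁿ`
(`H` acting through `Ψ`), then `det R` kills `ℤⁿ`. -/
theorem h23e_det_kills (Ψ : H →+* Matrix (Fin n) (Fin n) ℤ) (R : Matrix (Fin n) (Fin n) H)
    (hR : ∀ k a, ∑ i, Ψ (R k i) a i = 0) : Ψ R.det = 0 := by
  classical
  ext a l
  have h1 : Ψ R.det a l = ∑ i, Ψ ((R.adjugate * R) l i) a i := by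
    rw [Matrix.adjugate_mul, Finset.sum_eq_single l]
    · simp [Matrix.smul_apply]
    · intro i _ hil
      simp [Matrix.smul_apply, Matrix.one_apply_ne' hil]
    · intro hl
      exact absurd (Finset.mem_univ l) hl
  rw [h1, Matrix.zero_apply]
  have h2 : ∀ i, Ψ ((R.adjugate * R) l i) a i
      = ∑ k, ∑ b, Ψ (R.adjugate l k) a b * Ψ (R k i) b i := by
    intro i
    rw [Matrix.mul_apply, map_sum, Matrix.sum_apply]
    refine Finset.sum_congr rfl fun k _ => ?_
    rw [map_mul, Matrix.mul_apply]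
  rw [Finset.sum_congr rfl fun i _ => h2 i, Finset.sum_comm]
  refine Finset.sum_eq_zero fun k _ => ?_
  rw [Finset.sum_comm]
  refine Finset.sum_eq_zero fun b _ => ?_
  rw [← Finset.mul_sum, hR k b, mul_zero]

/-- **Fitting**: determinants of relation rows vanish. -/
theorem h23e_det_zero (Ψ : H →+* Matrix (Fin n) (Fin n) ℤ) (hΨ : Function.Injective Ψ)
    (T : Fin n → H) (j : Fin n → Fin n) :
    (Matrix.of fun k i => (((Ψ (T k) i (j k) : ℤ) : H) - if i = j k then T k else 0)).det
      = 0 := by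
  classical
  apply hΨ
  rw [map_zero]
  refine h23e_det_kills Ψ _ fun k a => ?_
  simp only [Matrix.of_apply, map_sub, map_intCast, Matrix.sub_apply]
  rw [Finset.sum_sub_distrib, sub_eq_zero]
  have h1 : ∀ i, ((Ψ (T k) i (j k) : ℤ) : Matrix (Fin n) (Fin n) ℤ) a i
      = if a = i then Ψ (T k) i (j k) else 0 := by
    intro i
    rw [Matrix.intCast_apply]
    by_cases hai : a = i
    · simp [hai]
    · simp [hai]
  have h2 : ∀ i, Ψ (if i = j k then T k else 0) a i
      = if i = j k then Ψ (T k) a i else 0 := by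
    intro i
    by_cases hi : i = j k
    · simp [hi]
    · simp [hi]
  rw [Finset.sum_congr rfl fun i _ => h1 i, Finset.sum_congr rfl fun i _ => h2 i,
    Finset.sum_ite_eq, Finset.sum_ite_eq', if_pos (Finset.mem_univ _),
    if_pos (Finset.mem_univ _)]

/-- **Left eigenvector.** -/
theorem h23e_left (Ψ : H →+* Matrix (Fin n) (Fin n) ℤ) (hΨ : Function.Injective Ψ)
    {E : Type*} [Field E] (χ : H →+* E) :
    ∃ φ : Fin n → E, φ ≠ 0 ∧ ∀ T j, ∑ i, φ i * ((Ψ T i j : ℤ) : E) = χ T * φ j := by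
  classical
  let S : Set (Fin n → E) :=
    {w | ∃ (T : H) (j : Fin n), w = fun i => ((Ψ T i j : ℤ) : E) - if i = j then χ T else 0}
  have hne : Submodule.span E S ≠ ⊤ := by
    intro hspan
    obtain ⟨d, hdS, hdet⟩ := h23_exists_det_ne_zero S hspan
    choose T j hTj using hdS
    apply hdet
    have h1 := h23e_det_zero Ψ hΨ T j
    have h2 := congrArg χ h1
    rw [map_zero, RingHom.map_det] at h2
    rw [← h2]
    congr 1
    ext k i
    rw [Matrix.of_apply, hTj k, RingHom.mapMatrix_apply, Matrix.map_apply, Matrix.of_apply,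
      map_sub, map_intCast]
    by_cases hi : i = j k
    · simp [hi]
    · simp [hi]
  obtain ⟨f, hf0, hle⟩ := Submodule.exists_le_ker_of_lt_top _ (lt_top_iff_ne_top.mpr hne)
  refine ⟨fun i => f (fun i' => if i = i' then 1 else 0), ?_, ?_⟩
  · intro h0
    apply hf0
    refine LinearMap.ext fun x => ?_
    rw [LinearMap.pi_apply_eq_sum_univ f x]
    simp only [LinearMap.zero_apply]
    refine Finset.sum_eq_zero fun i _ => ?_
    have := congrFun h0 i
    simp only [Pi.zero_apply] at this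
    rw [this, smul_zero]
  · intro T j
    have h1 := hle (Submodule.subset_span (⟨T, j, rfl⟩ : _ ∈ S))
    rw [LinearMap.mem_ker, LinearMap.pi_apply_eq_sum_univ] at h1
    simp only [smul_eq_mul, sub_mul, Finset.sum_sub_distrib, ite_mul, zero_mul,
      Finset.sum_ite_eq', Finset.mem_univ, if_true] at h1
    rw [sub_eq_zero] at h1
    refine Eq.trans (Finset.sum_congr rfl fun i _ => ?_) h1
    rw [mul_comm]

/-- The transpose of a ring homomorphism from a commutative ring to matrices. -/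
def h23eTr (Ψ : H →+* Matrix (Fin n) (Fin n) ℤ) : H →+* Matrix (Fin n) (Fin n) ℤ where
  toFun T := (Ψ T).transpose
  map_one' := by rw [map_one, Matrix.transpose_one]
  map_mul' T T' := by rw [mul_comm T T', map_mul, Matrix.transpose_mul]
  map_zero' := by rw [map_zero, Matrix.transpose_zero]
  map_add' T T' := by rw [map_add, Matrix.transpose_add]

theorem h23eTr_apply (Ψ : H →+* Matrix (Fin n) (Fin n) ℤ) (T : H) (i j : Fin n) :
    h23eTr Ψ T i j = Ψ T j i := rfl

/-- **Right eigenvector.** -/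
theorem h23e_right (Ψ : H →+* Matrix (Fin n) (Fin n) ℤ) (hΨ : Function.Injective Ψ)
    {E : Type*} [Field E] (χ : H →+* E) :
    ∃ w : Fin n → E, w ≠ 0 ∧ ∀ T i, ∑ j, ((Ψ T i j : ℤ) : E) * w j = χ T * w i := by
  have hinj : Function.Injective (h23eTr Ψ) := by
    intro T T' h
    apply hΨ
    have := congrArg Matrix.transpose h
    simpa [h23eTr] using this
  obtain ⟨φ, hφ0, hφ⟩ := h23e_left (h23eTr Ψ) hinj χ
  refine ⟨φ, hφ0, fun T i => ?_⟩
  refine Eq.trans (Finset.sum_congr rfl fun j _ => ?_) (hφ T i)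
  rw [h23eTr_apply, mul_comm]

/-- Right eigenvector over a domain. -/
theorem h23e_right_domain (Ψ : H →+* Matrix (Fin n) (Fin n) ℤ) (hΨ : Function.Injective Ψ)
    {O : Type*} [CommRing O] [IsDomain O] (χ : H →+* O) :
    ∃ w : Fin n → O, (∃ j, w j ≠ 0) ∧
      ∀ T i, ∑ j, ((Ψ T i j : ℤ) : O) * w j = χ T * w i := by
  obtain ⟨w, hw0, hw⟩ := h23e_right Ψ hΨ ((algebraMap O (FractionRing O)).comp χ)
  obtain ⟨b, hb⟩ := IsLocalization.exist_integer_multiples_of_finite (nonZeroDivisors O) w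
  choose a ha using hb
  have hb0 : algebraMap O (FractionRing O) (b : O) ≠ 0 := by
    intro h
    exact nonZeroDivisors.ne_zero b.2 (IsFractionRing.injective O (FractionRing O)
      (by rw [h, map_zero]))
  have ha' : ∀ j, algebraMap O (FractionRing O) (a j)
      = algebraMap O (FractionRing O) (b : O) * w j := by
    intro j
    rw [ha j, Algebra.smul_def]
  refine ⟨a, ?_, fun T i => ?_⟩
  · by_contra hcon
    apply hw0
    funext j
    have h1 : a j = 0 := by
      by_contra h
      exact hcon ⟨j, h⟩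
    have h2 := ha' j
    rw [h1, map_zero] at h2
    rcases mul_eq_zero.mp h2.symm with h3 | h3
    · exact absurd h3 hb0
    · exact h3
  · apply IsFractionRing.injective O (FractionRing O)
    rw [map_sum, map_mul, ha' i]
    have h1 := hw T i
    rw [RingHom.comp_apply] at h1
    rw [mul_left_comm, ← h1, Finset.mul_sum]
    refine Finset.sum_congr rfl fun j _ => ?_
    rw [map_mul, map_intCast, ha' j]
    ring

/-- Right eigenvector with a unit coordinate over a discrete valuation ring. -/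
theorem h23e_right_unit (Ψ : H →+* Matrix (Fin n) (Fin n) ℤ) (hΨ : Function.Injective Ψ)
    {O : Type*} [CommRing O] [IsDomain O] [IsDiscreteValuationRing O] (χ : H →+* O) :
    ∃ w : Fin n → O, (∃ j, IsUnit (w j)) ∧
      ∀ T i, ∑ j, ((Ψ T i j : ℤ) : O) * w j = χ T * w i := by
  classical
  obtain ⟨w, ⟨j₀, hj₀⟩, hw⟩ := h23e_right_domain Ψ hΨ χ
  obtain ⟨ϖ, hϖ⟩ := IsDiscreteValuationRing.exists_irreducible O
  -- the set of `m` such that `ϖ ^ m` divides all coordinates is bounded
  have hbound : ∃ m : ℕ, ¬ (∀ j, ϖ ^ m ∣ w j) := by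
    obtain ⟨m, u, hu⟩ := IsDiscreteValuationRing.eq_unit_mul_pow_irreducible hj₀ hϖ
    refine ⟨m + 1, fun h => ?_⟩
    obtain ⟨c, hc⟩ := h j₀
    rw [hu, pow_succ, mul_assoc] at hc
    have h1 : ϖ ^ m * (u : O) = ϖ ^ m * (ϖ * c) := by rw [← hc, mul_comm]
    have h2 := mul_left_cancel₀ (pow_ne_zero m hϖ.ne_zero) h1
    exact hϖ.not_isUnit (IsUnit.of_mul_eq_one (c * ((u⁻¹ : Oˣ) : O)) (by
      rw [← mul_assoc, ← h2, Units.mul_inv]))
  let m := Nat.find hbound
  have hm : ¬ (∀ j, ϖ ^ m ∣ w j) := Nat.find_spec hbound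
  have hm0 : m ≠ 0 := by
    intro h0
    apply hm
    intro j
    rw [h0, pow_zero]
    exact one_dvd _
  obtain ⟨m', hm'⟩ := Nat.exists_eq_succ_of_ne_zero hm0
  have hdiv : ∀ j, ϖ ^ m' ∣ w j := by
    have := Nat.find_min hbound (show m' < m by omega)
    exact not_not.mp this
  choose w' hw' using hdiv
  refine ⟨w', ?_, fun T i => ?_⟩
  · by_contra hcon
    apply hm
    intro j
    have h1 : ¬ IsUnit (w' j) := fun h => hcon ⟨j, h⟩
    have h2 : ϖ ∣ w' j := by
      rcases (IsDiscreteValuationRing.irreducible_iff_uniformizer ϖ).mp hϖ with h3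
      have h4 : w' j ∈ IsLocalRing.maximalIdeal O := (IsLocalRing.mem_maximalIdeal _).mpr h1
      rw [h3] at h4
      exact Ideal.mem_span_singleton.mp h4
    obtain ⟨c, hc⟩ := h2
    rw [hw' j, hc, hm', pow_succ]
    exact ⟨c, by ring⟩
  · apply mul_left_cancel₀ (pow_ne_zero m' hϖ.ne_zero)
    have h1 := hw T i
    rw [hw' i] at h1
    rw [mul_left_comm, ← h1, Finset.mul_sum]
    refine Finset.sum_congr rfl fun j _ => ?_
    rw [hw' j]
    ring

end Abstract

variable (N : ℕ) [NeZero N]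

/-- **(EV), field form.** -/
theorem h23m_eigen_field (S : Set ℕ) (hNS : ∀ q : ℕ, q.Prime → q ∣ N → q ∈ S)
    {E : Type*} [Field E] (χ : CuspForm.heckeAlgebra N 2 S →+* E) :
    ∃ w : Fin (h23mRank N) → E, w ≠ 0 ∧
      ∀ (l : ℕ) (hl : l.Prime) (hlN : ¬ l ∣ N) (hlS : l ∉ S) (i : Fin (h23mRank N)),
        ∑ j, ((h23mT N l i j : ℤ) : E) * w j = χ (CuspForm.heckeAlgebra.T hl hlN hlS) * w i := by
  obtain ⟨w, hw0, hw⟩ := h23e_right (h23mPsi N S hNS) (h23mPsi_injective N S hNS) χ
  refine ⟨w, hw0, fun l hl hlN hlS i => ?_⟩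
  have h1 := hw (CuspForm.heckeAlgebra.T hl hlN hlS) i
  rw [h23mPsi_T] at h1
  exact h1

/-- **(EV)** over a domain: a non-zero eigenvector of the integer Hecke matrices. -/
theorem h23m_eigen (S : Set ℕ) (hNS : ∀ q : ℕ, q.Prime → q ∣ N → q ∈ S)
    {O : Type*} [CommRing O] [IsDomain O] (χ : CuspForm.heckeAlgebra N 2 S →+* O) :
    ∃ w : Fin (h23mRank N) → O, (∃ j, w j ≠ 0) ∧
      ∀ (l : ℕ) (hl : l.Prime) (hlN : ¬ l ∣ N) (hlS : l ∉ S) (i : Fin (h23mRank N)),
        ∑ j, ((h23mT N l i j : ℤ) : O) * w j = χ (CuspForm.heckeAlgebra.T hl hlN hlS) * w i := by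
  obtain ⟨w, hw0, hw⟩ := h23e_right_domain (h23mPsi N S hNS) (h23mPsi_injective N S hNS) χ
  refine ⟨w, hw0, fun l hl hlN hlS i => ?_⟩
  have h1 := hw (CuspForm.heckeAlgebra.T hl hlN hlS) i
  rw [h23mPsi_T] at h1
  exact h1

/-- **(EV)** over a discrete valuation ring: a primitive eigenvector. -/
theorem h23m_eigen_unit (S : Set ℕ) (hNS : ∀ q : ℕ, q.Prime → q ∣ N → q ∈ S)
    {O : Type*} [CommRing O] [IsDomain O] [IsDiscreteValuationRing O]
    (χ : CuspForm.heckeAlgebra N 2 S →+* O) :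
    ∃ w : Fin (h23mRank N) → O, (∃ j, IsUnit (w j)) ∧
      ∀ (l : ℕ) (hl : l.Prime) (hlN : ¬ l ∣ N) (hlS : l ∉ S) (i : Fin (h23mRank N)),
        ∑ j, ((h23mT N l i j : ℤ) : O) * w j = χ (CuspForm.heckeAlgebra.T hl hlN hlS) * w i := by
  obtain ⟨w, hw0, hw⟩ := h23e_right_unit (h23mPsi N S hNS) (h23mPsi_injective N S hNS) χ
  refine ⟨w, hw0, fun l hl hlN hlS i => ?_⟩
  have h1 := hw (CuspForm.heckeAlgebra.T hl hlN hlS) i
  rw [h23mPsi_T] at h1
  exact h1

end Fermat.Agent.S30x.Ev.H23
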