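import Fermat.Agent.S42x.Top.H23_Mat

/-!
# W8 (S30) / W9 (S31), shared leaf (MAT), part 1 (helper23): the matrix model of the lattice

`Λ = Hom_par(Γ₀(N), ℤ)` is a free `ℤ`-module of finite rank.  We fix, once and for all,

* `h23mRank N`  : its rank;
* `h23mB N j`   : a `ℤ`-basis (`j : Fin (h23mRank N)`);
* `h23mT N ℓ`   : the integer matrix of the Hecke operator `T_ℓ` (`ℓ` prime, `ℓ ∤ N`) in this
  basis, in coset form.

Results: `h23mB_par` (M1), `h23mB_span` (M2), `h23mB_indep` (M3, saturated independence: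
`m ∣ ∑ c_j b_j(γ)` for all `γ` implies `m ∣ c_j`), `h23mT_coset` (M4).
-/

set_option autoImplicit false
set_option linter.style.haveILetI false

noncomputable section

namespace Fermat.Agent.S30x.Ev.H23

open UpperHalfPlane ModularFormClass CongruenceSubgroup ModularCurve ModularCurve.Period
open Fermat.Agent.S22 Fermat.Agent.S16x.Low.H5 Fermat.Agent.S16x.Low.H23
open Fermat.Agent.S42x.Top.H23
open scoped MatrixGroups

variable (N : ℕ) [NeZero N]

theorem h23mLam_finite : Module.Finite ℤ ↥(homsKilling ℤ (parSet N) ℤ) := by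
  haveI := groupFG_Gamma0 N
  exact homsKillingZ_moduleFinite (parSet N)

theorem h23mLam_free : Module.Free ℤ ↥(homsKilling ℤ (parSet N) ℤ) := by
  haveI := groupFG_Gamma0 N
  exact homsKillingZ_moduleFree (parSet N)

/-- The rank of `Λ = Hom_par(Γ₀(N), ℤ)`. -/
def h23mRank : ℕ := Module.finrank ℤ ↥(homsKilling ℤ (parSet N) ℤ)

/-- A `ℤ`-basis of `Λ`. -/
def h23mBasis : Module.Basis (Fin (h23mRank N)) ℤ ↥(homsKilling ℤ (parSet N) ℤ) :=
  haveI := h23mLam_finite N
  haveI := h23mLam_free N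
  Module.finBasis ℤ _

/-- The basis vectors, as homomorphisms `Γ₀(N) → ℤ`. -/
def h23mB (j : Fin (h23mRank N)) : Additive (Gamma0 N) →+ ℤ := (h23mBasis N j).1

theorem h23mB_mem (j : Fin (h23mRank N)) : h23mB N j ∈ parabolicHoms ℤ (Gamma0 N) ℤ := by
  rw [parabolicHoms_eq_homsKilling]
  exact (h23mBasis N j).2

/-- **(M1)** the basis vectors are parabolic. -/
theorem h23mB_par (j : Fin (h23mRank N)) : IsParabolicHom (Gamma0 N) (h23mB N j) :=
  h23mB_mem N j

theorem h23m_sum_coe (c : Fin (h23mRank N) → ℤ) :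
    ((∑ j, c j • h23mBasis N j : ↥(homsKilling ℤ (parSet N) ℤ)) : Additive (Gamma0 N) →+ ℤ)
      = ∑ j, c j • h23mB N j := by
  simp only [Submodule.coe_sum, Submodule.coe_smul]
  rfl

/-- **(M2)** every integral parabolic class is an integral combination of the basis. -/
theorem h23mB_span (φ : Additive (Gamma0 N) →+ ℤ) (hφ : IsParabolicHom (Gamma0 N) φ) :
    ∃ c : Fin (h23mRank N) → ℤ, φ = ∑ j, c j • h23mB N j := by
  have hφ' : φ ∈ homsKilling ℤ (parSet N) ℤ := hφ
  refine ⟨fun j => (h23mBasis N).repr ⟨φ, hφ'⟩ j, ?_⟩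
  have h1 := (h23mBasis N).sum_repr ⟨φ, hφ'⟩
  have h2 := congrArg (fun x : ↥(homsKilling ℤ (parSet N) ℤ) =>
    (x : Additive (Gamma0 N) →+ ℤ)) h1
  simp only [] at h2
  rw [h23m_sum_coe] at h2
  exact h2.symm

theorem h23m_sum_apply (c : Fin (h23mRank N) → ℤ) (γ : Additive (Gamma0 N)) :
    (∑ j, c j • h23mB N j) γ = ∑ j, c j * h23mB N j γ := by
  simp only [AddMonoidHom.finsetSum_apply, AddMonoidHom.smul_apply, smul_eq_mul]

/-- `ℤ`-linear independence of the basis, in function form. -/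
theorem h23mB_indep_zero (c : Fin (h23mRank N) → ℤ)
    (h : ∀ γ : Gamma0 N, ∑ j, c j * h23mB N j (Additive.ofMul γ) = 0) : c = 0 := by
  have hli := (h23mBasis N).linearIndependent
  rw [Fintype.linearIndependent_iff] at hli
  funext i
  refine hli c ?_ i
  apply Subtype.ext
  rw [h23m_sum_coe]
  refine AddMonoidHom.ext fun γ => ?_
  rw [h23m_sum_apply]
  exact h (Additive.toMul γ)

/-- **(M3)** saturated independence: if `m` divides `∑ c_j b_j(γ)` for all `γ`, then `m`
divides every `c_j`. (`m = 0`: linear independence over `ℤ`.) -/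
theorem h23mB_indep (m : ℕ) (c : Fin (h23mRank N) → ℤ)
    (h : ∀ γ : Gamma0 N, (m : ℤ) ∣ ∑ j, c j * h23mB N j (Additive.ofMul γ)) :
    ∀ j, (m : ℤ) ∣ c j := by
  by_cases hm : m = 0
  · subst hm
    have hc : c = 0 := h23mB_indep_zero N c fun γ => by
      have := h γ
      simpa using this
    intro j
    rw [hc]
    exact dvd_zero _
  · have hm' : (m : ℤ) ≠ 0 := by exact_mod_cast hm
    -- the quotient homomorphism
    let F : Additive (Gamma0 N) → ℤ := fun γ => (∑ j, c j * h23mB N j γ) / (m : ℤ)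
    have hF : ∀ γ : Additive (Gamma0 N), (m : ℤ) * F γ = ∑ j, c j * h23mB N j γ := by
      intro γ
      exact Int.mul_ediv_cancel' (h (Additive.toMul γ))
    let ψ : Additive (Gamma0 N) →+ ℤ := AddMonoidHom.mk' F (by
      intro a b
      apply mul_left_cancel₀ hm'
      rw [mul_add, hF, hF, hF, ← Finset.sum_add_distrib]
      refine Finset.sum_congr rfl fun j _ => ?_
      rw [map_add, mul_add])
    have hψ : ψ ∈ homsKilling ℤ (parSet N) ℤ := by
      intro γ hγ
      apply mul_left_cancel₀ hm'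
      show (m : ℤ) * F (Additive.ofMul γ) = (m : ℤ) * 0
      rw [hF, mul_zero]
      refine Finset.sum_eq_zero fun j _ => ?_
      have := (h23mBasis N j).2 γ hγ
      have h0 : h23mB N j (Additive.ofMul γ) = 0 := this
      rw [h0, mul_zero]
    have heq : (∑ j, c j • h23mBasis N j : ↥(homsKilling ℤ (parSet N) ℤ))
        = (m : ℤ) • (⟨ψ, hψ⟩ : ↥(homsKilling ℤ (parSet N) ℤ)) := by
      apply Subtype.ext
      rw [h23m_sum_coe]
      refine AddMonoidHom.ext fun γ => ?_
      rw [h23m_sum_apply]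
      show _ = (m : ℤ) • F γ
      rw [smul_eq_mul, hF]
    intro j
    have h1 := congrArg (fun x => (h23mBasis N).repr x j) heq
    simp only [map_sum, map_smul, Module.Basis.repr_self, Finsupp.coe_finsetSum,
      Finsupp.coe_smul, Finset.sum_apply, Pi.smul_apply, smul_eq_mul] at h1
    rw [Finset.sum_eq_single j] at h1
    · rw [Finsupp.single_eq_same, mul_one] at h1
      exact ⟨_, h1⟩
    · intro i _ hij
      rw [Finsupp.single_eq_of_ne (Ne.symm hij), mul_zero]
    · intro hj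
      exact absurd (Finset.mem_univ j) hj

/-- The integer matrix of `T_ℓ` exists. -/
theorem h23m_exists_t (l : ℕ) :
    ∃ t : Matrix (Fin (h23mRank N)) (Fin (h23mRank N)) ℤ, ∀ [Fact l.Prime], ¬ l ∣ N →
      ∀ (γ : Gamma0 N) (σ : Equiv.Perm (OnePoint (ZMod l)))
        (γ' : OnePoint (ZMod l) → SL(2, ℤ))
        (h : CosetData (tA l) (tB l) (tD l) N (γ : SL(2, ℤ)) σ γ'), ∀ j,
        ∑ i, h23mB N j (Additive.ofMul (⟨γ' i, h.1 i⟩ : Gamma0 N))
          = ∑ k, t k j * h23mB N k (Additive.ofMul γ) := by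
  by_cases hl : l.Prime ∧ ¬ l ∣ N
  · haveI : Fact l.Prime := ⟨hl.1⟩
    have h1 : ∀ j, ∃ ψ' : Additive (Gamma0 N) →+ ℤ, ψ' ∈ parabolicHoms ℤ (Gamma0 N) ℤ ∧
        ∀ (γ : Gamma0 N) (σ : Equiv.Perm (OnePoint (ZMod l)))
          (γ' : OnePoint (ZMod l) → SL(2, ℤ))
          (h : CosetData (tA l) (tB l) (tD l) N (γ : SL(2, ℤ)) σ γ'),
          ∑ x, h23mB N j (Additive.ofMul (⟨γ' x, h.1 x⟩ : Gamma0 N))
            = ψ' (Additive.ofMul γ) :=
      fun j => h23_hecke_lattice hl.2 (h23mB N j) (h23mB_mem N j)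
    choose ψ' hψ'mem hψ' using h1
    have h2 : ∀ j, ∃ c : Fin (h23mRank N) → ℤ, ψ' j = ∑ k, c k • h23mB N k :=
      fun j => h23mB_span N _ (hψ'mem j)
    choose c hc using h2
    refine ⟨Matrix.of fun k j => c j k, ?_⟩
    intro _ _ γ σ γ' h j
    have h3 := hψ' j γ σ γ' h
    refine h3.trans ?_
    rw [hc j, h23m_sum_apply]
    rfl
  · refine ⟨0, ?_⟩
    intro hF hlN
    exact absurd ⟨hF.out, hlN⟩ hl

/-- The integer matrix of the Hecke operator `T_ℓ` on `Λ` (`0` if `ℓ` is not a prime or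
divides `N`). -/
def h23mT (l : ℕ) : Matrix (Fin (h23mRank N)) (Fin (h23mRank N)) ℤ :=
  Classical.choose (h23m_exists_t N l)

/-- **(M4)** the coset formula: `T_ℓ b_j = ∑_k t_ℓ(k, j) b_k`. -/
theorem h23mT_coset (l : ℕ) [Fact l.Prime] (hlN : ¬ l ∣ N) (γ : Gamma0 N)
    (σ : Equiv.Perm (OnePoint (ZMod l))) (γ' : OnePoint (ZMod l) → SL(2, ℤ))
    (h : CosetData (tA l) (tB l) (tD l) N (γ : SL(2, ℤ)) σ γ') (j : Fin (h23mRank N)) :
    ∑ i, h23mB N j (Additive.ofMul (⟨γ' i, h.1 i⟩ : Gamma0 N))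
      = ∑ k, h23mT N l k j * h23mB N k (Additive.ofMul γ) :=
  Classical.choose_spec (h23m_exists_t N l) hlN γ σ γ' h j

end Fermat.Agent.S30x.Ev.H23
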