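import Fermat.Agent.S30x.Ev.H23_MatDefs
import Fermat.Prelude.Def_CuspForm_HeckeAlgebra

/-!
# W8 (S30) / W9 (S31), shared leaf (MAT), part 2 (helper23): the Hecke algebra is a ring of
integer matrices

With the basis `h23mB N` of `Λ = Hom_par(Γ₀(N), ℤ)` and the matrices `h23mT N ℓ` of
`H23_MatDefs`:

* `h23mBC_indep`, `h23mBC_span` : the basis is a `ℂ`-basis of `Hom_par(Γ₀(N), ℂ)`;
* `H23IsMat N M T` : the integer matrix `M` is the matrix of `T ∈ End_ℂ S₂(Γ₀(N))` through the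
  period isomorphism `S₂ × S₂ ≅ Hom_par(Γ₀(N), ℂ)` (S21);
* `h23mT_comm` (M5) : the matrices `t_ℓ` commute;
* `h23mPsi N S hNS : heckeAlgebra N 2 S →+* Matrix _ _ ℤ` (M6) : an **injective** ring
  homomorphism with `h23mPsi (heckeAlgebra.T hℓ hℓN hℓS) = h23mT N ℓ` (here `S` contains all
  primes dividing `N`).  In particular every polynomial relation between the `t_ℓ` holds between
  the `T_ℓ`.
-/

set_option autoImplicit false
set_option linter.style.haveILetI false

noncomputable section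

namespace Fermat.Agent.S30x.Ev.H23

open UpperHalfPlane ModularFormClass CongruenceSubgroup ModularCurve ModularCurve.Period
open Fermat.Agent.S22 Fermat.Agent.S16x.Low.H5 Fermat.Agent.S16x.Low.H23
open Fermat.Agent.S42x.Top.H23
open scoped MatrixGroups

variable (N : ℕ) [NeZero N]

/-- The basis vectors, as homomorphisms `Γ₀(N) → ℂ`. -/
def h23mBC (j : Fin (h23mRank N)) : Additive (Gamma0 N) →+ ℂ := castHomL ℂ (h23mB N j)

theorem h23mBC_apply (j : Fin (h23mRank N)) (γ : Additive (Gamma0 N)) :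
    h23mBC N j γ = ((h23mB N j γ : ℤ) : ℂ) := rfl

theorem h23mBC_mem (j : Fin (h23mRank N)) : h23mBC N j ∈ parabolicHoms ℂ (Gamma0 N) ℂ := by
  intro γ hγ
  rw [h23mBC_apply, h23mB_par N j γ hγ, Int.cast_zero]

theorem h23mBC_sum_apply (c : Fin (h23mRank N) → ℂ) (γ : Additive (Gamma0 N)) :
    (∑ j, c j • h23mBC N j) γ = ∑ j, c j * ((h23mB N j γ : ℤ) : ℂ) := by
  simp only [AddMonoidHom.finsetSum_apply, AddMonoidHom.smul_apply, smul_eq_mul, h23mBC_apply]

theorem h23mBC_sum_mem (c : Fin (h23mRank N) → ℂ) :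
    (∑ j, c j • h23mBC N j) ∈ parabolicHoms ℂ (Gamma0 N) ℂ :=
  Submodule.sum_mem _ fun j _ => Submodule.smul_mem _ _ (h23mBC_mem N j)

/-- `ℚ`-linear independence of the basis, in function form. -/
theorem h23mB_indep_rat (c : Fin (h23mRank N) → ℚ)
    (h : ∀ γ : Gamma0 N, ∑ j, c j * ((h23mB N j (Additive.ofMul γ) : ℤ) : ℚ) = 0) : c = 0 := by
  obtain ⟨d, hd⟩ := IsLocalization.exist_integer_multiples_of_finite (nonZeroDivisors ℤ) c
  choose a ha using hd
  have hd0 : ((d : ℤ) : ℚ) ≠ 0 := by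
    have := nonZeroDivisors.ne_zero d.2
    exact_mod_cast this
  have ha' : ∀ j, ((a j : ℤ) : ℚ) = ((d : ℤ) : ℚ) * c j := by
    intro j
    have := ha j
    rw [Algebra.smul_def] at this
    simpa using this
  have h0 : a = 0 := by
    refine h23mB_indep_zero N a fun γ => ?_
    have h1 : ((∑ j, a j * h23mB N j (Additive.ofMul γ) : ℤ) : ℚ) = 0 := by
      rw [Int.cast_sum]
      have h2 : ∀ j, ((a j * h23mB N j (Additive.ofMul γ) : ℤ) : ℚ)
          = ((d : ℤ) : ℚ) * (c j * ((h23mB N j (Additive.ofMul γ) : ℤ) : ℚ)) := by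
        intro j
        rw [Int.cast_mul, ha', mul_assoc]
      rw [Finset.sum_congr rfl fun j _ => h2 j, ← Finset.mul_sum, h γ, mul_zero]
    exact_mod_cast h1
  funext j
  have h3 := ha' j
  rw [h0] at h3
  simp only [Pi.zero_apply, Int.cast_zero] at h3
  rcases mul_eq_zero.mp h3.symm with h4 | h4
  · exact absurd h4 hd0
  · exact h4

/-- **`ℂ`-linear independence** of the basis. -/
theorem h23mBC_indep (c : Fin (h23mRank N) → ℂ) (h : ∑ j, c j • h23mBC N j = 0) : c = 0 := by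
  classical
  refine h23_indep_extend (algebraMap ℚ ℂ)
    (Set.range fun γ : Gamma0 N =>
      fun j => ((h23mB N j (Additive.ofMul γ) : ℤ) : ℚ)) ?_ c ?_
  · intro c₁ hc₁
    refine h23mB_indep_rat N c₁ fun γ => ?_
    exact hc₁ _ ⟨γ, rfl⟩
  · rintro _ ⟨γ, rfl⟩
    have := congrArg (fun f : Additive (Gamma0 N) →+ ℂ => f (Additive.ofMul γ)) h
    simp only [h23mBC_sum_apply, AddMonoidHom.zero_apply] at this
    simpa only [map_intCast] using this

/-- **Spanning**: every complex parabolic class is a combination of the basis. -/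
theorem h23mBC_span (φ : Additive (Gamma0 N) →+ ℂ) (hφ : φ ∈ parabolicHoms ℂ (Gamma0 N) ℂ) :
    ∃ c : Fin (h23mRank N) → ℂ, φ = ∑ j, c j • h23mBC N j := by
  haveI := groupFG_Gamma0 N
  rw [parabolicHoms_eq_homsKilling] at hφ
  have h1 := homsKilling_le_span (parSet N) hφ
  have h2 : Submodule.span ℂ ((castHomL ℂ) '' (homsKilling ℤ (parSet N) ℤ :
      Set (Additive (Gamma0 N) →+ ℤ))) ≤ Submodule.span ℂ (Set.range (h23mBC N)) := by
    refine Submodule.span_le.mpr ?_
    rintro _ ⟨ψ, hψ, rfl⟩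
    obtain ⟨c, hc⟩ := h23mB_span N ψ hψ
    rw [SetLike.mem_coe, hc, map_sum]
    refine Submodule.sum_mem _ fun j _ => ?_
    rw [map_zsmul, ← Int.cast_smul_eq_zsmul ℂ]
    exact Submodule.smul_mem _ _ (Submodule.subset_span ⟨j, rfl⟩)
  obtain ⟨c, hc⟩ := (Submodule.mem_span_range_iff_exists_fun ℂ).mp (h2 h1)
  exact ⟨c, hc.symm⟩

/-- Coordinates of a period class. -/
theorem h23m_exists_coord (f g : CuspForm (Gamma0 N) 2) :
    ∃ c : Fin (h23mRank N) → ℂ, periodHomPair N (f, g) = ∑ j, c j • h23mBC N j := by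
  obtain ⟨-, hrange⟩ := Fermat.Agent.S21.result N
  refine h23mBC_span N _ ?_
  rw [← hrange]
  exact LinearMap.mem_range_self _ _

/-- Every coordinate vector is the vector of a period class. -/
theorem h23m_exists_forms (c : Fin (h23mRank N) → ℂ) :
    ∃ f g : CuspForm (Gamma0 N) 2, periodHomPair N (f, g) = ∑ j, c j • h23mBC N j := by
  obtain ⟨-, hrange⟩ := Fermat.Agent.S21.result N
  have h1 := h23mBC_sum_mem N c
  rw [← hrange] at h1
  obtain ⟨⟨f, g⟩, hfg⟩ := h1
  exact ⟨f, g, hfg⟩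

/-- `M` is the matrix of `T` through the period isomorphism. -/
def H23IsMat (M : Matrix (Fin (h23mRank N)) (Fin (h23mRank N)) ℤ)
    (T : Module.End ℂ (CuspForm (Gamma0 N) 2)) : Prop :=
  ∀ (f g : CuspForm (Gamma0 N) 2) (c : Fin (h23mRank N) → ℂ),
    periodHomPair N (f, g) = ∑ j, c j • h23mBC N j →
    periodHomPair N (T f, T g) = ∑ k, (∑ j, ((M k j : ℤ) : ℂ) * c j) • h23mBC N k

variable {N}

theorem H23IsMat.one : H23IsMat N 1 1 := by
  intro f g c hc
  rw [Module.End.one_apply, Module.End.one_apply, hc]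
  refine Finset.sum_congr rfl fun k _ => ?_
  congr 1
  rw [Finset.sum_eq_single k]
  · simp
  · intro j _ hjk
    rw [Matrix.one_apply_ne (Ne.symm hjk)]
    simp
  · intro hk
    exact absurd (Finset.mem_univ k) hk

theorem H23IsMat.int (r : ℤ) :
    H23IsMat N (algebraMap ℤ _ r)
      (algebraMap ℤ (Module.End ℂ (CuspForm (Gamma0 N) 2)) r) := by
  intro f g c hc
  have h1 : ∀ x : CuspForm (Gamma0 N) 2,
      (algebraMap ℤ (Module.End ℂ (CuspForm (Gamma0 N) 2)) r) x = (r : ℂ) • x := by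
    intro x
    rw [Module.algebraMap_end_apply, Int.cast_smul_eq_zsmul]
  rw [h1, h1, ← Prod.smul_mk, map_smul, hc, Finset.smul_sum]
  refine Finset.sum_congr rfl fun k _ => ?_
  rw [smul_smul]
  congr 1
  rw [Finset.sum_eq_single k]
  · rw [Matrix.algebraMap_matrix_apply, if_pos rfl]
    simp
  · intro j _ hjk
    rw [Matrix.algebraMap_matrix_apply, if_neg (Ne.symm hjk)]
    simp
  · intro hk
    exact absurd (Finset.mem_univ k) hk

theorem H23IsMat.add {M M' : Matrix (Fin (h23mRank N)) (Fin (h23mRank N)) ℤ}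
    {T T' : Module.End ℂ (CuspForm (Gamma0 N) 2)} (h : H23IsMat N M T) (h' : H23IsMat N M' T') :
    H23IsMat N (M + M') (T + T') := by
  intro f g c hc
  rw [LinearMap.add_apply, LinearMap.add_apply, ← Prod.mk_add_mk, map_add, h f g c hc,
    h' f g c hc, ← Finset.sum_add_distrib]
  refine Finset.sum_congr rfl fun k _ => ?_
  rw [← add_smul, ← Finset.sum_add_distrib]
  congr 1
  refine Finset.sum_congr rfl fun j _ => ?_
  rw [Matrix.add_apply, Int.cast_add, add_mul]

theorem H23IsMat.mul {M M' : Matrix (Fin (h23mRank N)) (Fin (h23mRank N)) ℤ}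
    {T T' : Module.End ℂ (CuspForm (Gamma0 N) 2)} (h : H23IsMat N M T) (h' : H23IsMat N M' T') :
    H23IsMat N (M * M') (T * T') := by
  intro f g c hc
  rw [Module.End.mul_apply, Module.End.mul_apply, h (T' f) (T' g) _ (h' f g c hc)]
  refine Finset.sum_congr rfl fun k _ => ?_
  congr 1
  simp only [Matrix.mul_apply, Int.cast_sum, Int.cast_mul, Finset.mul_sum, Finset.sum_mul]
  rw [Finset.sum_comm]
  refine Finset.sum_congr rfl fun j _ => Finset.sum_congr rfl fun i _ => ?_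
  ring

/-- The matrix is determined by the operator. -/
theorem H23IsMat.mat_unique {M M' : Matrix (Fin (h23mRank N)) (Fin (h23mRank N)) ℤ}
    {T : Module.End ℂ (CuspForm (Gamma0 N) 2)} (h : H23IsMat N M T) (h' : H23IsMat N M' T) :
    M = M' := by
  classical
  ext k j
  obtain ⟨f, g, hfg⟩ := h23m_exists_forms N (Pi.single j (1 : ℂ))
  have h1 := h f g _ hfg
  rw [h' f g _ hfg, ← sub_eq_zero, ← Finset.sum_sub_distrib] at h1
  simp only [← sub_smul] at h1
  have h2 := congrFun (h23mBC_indep N _ h1) k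
  simp only [Pi.single_apply, mul_ite, mul_one, mul_zero, Finset.sum_ite_eq',
    Finset.mem_univ, if_true, Pi.zero_apply, sub_eq_zero] at h2
  exact_mod_cast h2.symm

/-- The operator is determined by the matrix. -/
theorem H23IsMat.op_unique {M : Matrix (Fin (h23mRank N)) (Fin (h23mRank N)) ℤ}
    {T T' : Module.End ℂ (CuspForm (Gamma0 N) 2)} (h : H23IsMat N M T) (h' : H23IsMat N M T') :
    T = T' := by
  obtain ⟨hinj, -⟩ := Fermat.Agent.S21.result N
  refine LinearMap.ext fun f => ?_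
  obtain ⟨c, hc⟩ := h23m_exists_coord N f 0
  have h1 := h f 0 c hc
  rw [← h' f 0 c hc] at h1
  have h2 := hinj h1
  exact (Prod.mk.inj h2).1

variable (N)

/-- The matrix of `T_ℓ` is `t_ℓ`. -/
theorem h23mT_isMat {l : ℕ} (hl : l.Prime) (hlN : ¬ l ∣ N) :
    H23IsMat N (h23mT N l) (CuspForm.heckeTLin 2 hl hlN) := by
  haveI : Fact l.Prime := ⟨hl⟩
  intro f g c hc
  refine AddMonoidHom.ext fun γ => ?_
  obtain ⟨σ, γ', h⟩ := exists_cosetData_T hlN (Additive.toMul γ)
  have h1 := periodHomPair_heckeT hlN f g (Additive.toMul γ) σ γ' h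
  have h2 : periodHomPair N (CuspForm.heckeTLin 2 hl hlN f, CuspForm.heckeTLin 2 hl hlN g) γ
      = ∑ x, periodHomPair N (f, g) (Additive.ofMul (⟨γ' x, h.1 x⟩ : Gamma0 N)) := h1
  rw [h2, hc, h23mBC_sum_apply]
  simp only [h23mBC_sum_apply]
  rw [Finset.sum_comm]
  have h3 : ∀ j, ∑ x, c j * ((h23mB N j (Additive.ofMul (⟨γ' x, h.1 x⟩ : Gamma0 N)) : ℤ) : ℂ)
      = c j * ∑ k, ((h23mT N l k j : ℤ) : ℂ) * ((h23mB N k γ : ℤ) : ℂ) := by
    intro j
    rw [← Finset.mul_sum]
    congr 1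
    have h4 := h23mT_coset N l hlN (Additive.toMul γ) σ γ' h j
    have h5 := congrArg (fun z : ℤ => (z : ℂ)) h4
    simp only [Int.cast_sum, Int.cast_mul] at h5
    exact h5
  rw [Finset.sum_congr rfl fun j _ => h3 j]
  simp only [Finset.mul_sum, Finset.sum_mul]
  rw [Finset.sum_comm]
  refine Finset.sum_congr rfl fun k _ => Finset.sum_congr rfl fun j _ => ?_
  ring

/-- **(M5)** the matrices `t_ℓ` commute. -/
theorem h23mT_comm {l l' : ℕ} (hl : l.Prime) (hlN : ¬ l ∣ N) (hl' : l'.Prime)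
    (hl'N : ¬ l' ∣ N) : h23mT N l * h23mT N l' = h23mT N l' * h23mT N l := by
  have h1 := (h23mT_isMat N hl hlN).mul (h23mT_isMat N hl' hl'N)
  have h2 := (h23mT_isMat N hl' hl'N).mul (h23mT_isMat N hl hlN)
  have h3 : CuspForm.heckeTLin 2 hl hlN * CuspForm.heckeTLin 2 hl' hl'N
      = CuspForm.heckeTLin 2 hl' hl'N * CuspForm.heckeTLin 2 hl hlN :=
    (CuspForm.commute_of_mem_heckeGenerators (S := ∅)
      (CuspForm.heckeTLin_mem_heckeGenerators hl hlN (Set.notMem_empty _))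
      (CuspForm.heckeTLin_mem_heckeGenerators hl' hl'N (Set.notMem_empty _))).eq
  rw [h3] at h1
  exact h1.mat_unique h2

/-- Every element of the Hecke algebra has an integer matrix (`S` contains the primes of
`N`). -/
theorem h23m_exists_mat (S : Set ℕ) (hNS : ∀ q : ℕ, q.Prime → q ∣ N → q ∈ S)
    (T : Module.End ℂ (CuspForm (Gamma0 N) 2)) (hT : T ∈ CuspForm.heckeAlgebra N 2 S) :
    ∃ M : Matrix (Fin (h23mRank N)) (Fin (h23mRank N)) ℤ, H23IsMat N M T := by
  unfold CuspForm.heckeAlgebra at hT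
  induction hT using Algebra.adjoin_induction with
  | mem x hx =>
    rcases hx with ⟨l, hl, hlN, -, rfl⟩ | ⟨q, hqN, hq, hqS, rfl⟩
    · exact ⟨_, h23mT_isMat N hl hlN⟩
    · exact absurd (hNS q hq hqN) hqS
  | algebraMap r => exact ⟨_, H23IsMat.int r⟩
  | add x y _ _ hx hy =>
    obtain ⟨M, hM⟩ := hx
    obtain ⟨M', hM'⟩ := hy
    exact ⟨_, hM.add hM'⟩
  | mul x y _ _ hx hy =>
    obtain ⟨M, hM⟩ := hx
    obtain ⟨M', hM'⟩ := hy
    exact ⟨_, hM.mul hM'⟩

/-- The matrix of an element of the Hecke algebra. -/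
def h23mPsiFun (S : Set ℕ) (hNS : ∀ q : ℕ, q.Prime → q ∣ N → q ∈ S)
    (T : CuspForm.heckeAlgebra N 2 S) : Matrix (Fin (h23mRank N)) (Fin (h23mRank N)) ℤ :=
  Classical.choose (h23m_exists_mat N S hNS T.1 T.2)

theorem h23mPsiFun_isMat (S : Set ℕ) (hNS : ∀ q : ℕ, q.Prime → q ∣ N → q ∈ S)
    (T : CuspForm.heckeAlgebra N 2 S) : H23IsMat N (h23mPsiFun N S hNS T) T.1 :=
  Classical.choose_spec (h23m_exists_mat N S hNS T.1 T.2)

/-- **(M6)** the Hecke algebra as a ring of integer matrices. -/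
def h23mPsi (S : Set ℕ) (hNS : ∀ q : ℕ, q.Prime → q ∣ N → q ∈ S) :
    CuspForm.heckeAlgebra N 2 S →+* Matrix (Fin (h23mRank N)) (Fin (h23mRank N)) ℤ where
  toFun := h23mPsiFun N S hNS
  map_one' := (h23mPsiFun_isMat N S hNS 1).mat_unique H23IsMat.one
  map_mul' T T' := (h23mPsiFun_isMat N S hNS (T * T')).mat_unique
    ((h23mPsiFun_isMat N S hNS T).mul (h23mPsiFun_isMat N S hNS T'))
  map_zero' := by
    have h0 : H23IsMat N (0 : Matrix (Fin (h23mRank N)) (Fin (h23mRank N)) ℤ) 0 := by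
      have := H23IsMat.int (N := N) 0
      simpa using this
    exact (h23mPsiFun_isMat N S hNS 0).mat_unique h0
  map_add' T T' := (h23mPsiFun_isMat N S hNS (T + T')).mat_unique
    ((h23mPsiFun_isMat N S hNS T).add (h23mPsiFun_isMat N S hNS T'))

theorem h23mPsi_isMat (S : Set ℕ) (hNS : ∀ q : ℕ, q.Prime → q ∣ N → q ∈ S)
    (T : CuspForm.heckeAlgebra N 2 S) : H23IsMat N (h23mPsi N S hNS T) T.1 :=
  h23mPsiFun_isMat N S hNS T

/-- **(M6)** `Ψ(T_ℓ) = t_ℓ`. -/
theorem h23mPsi_T (S : Set ℕ) (hNS : ∀ q : ℕ, q.Prime → q ∣ N → q ∈ S) {l : ℕ}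
    (hl : l.Prime) (hlN : ¬ l ∣ N) (hlS : l ∉ S) :
    h23mPsi N S hNS (CuspForm.heckeAlgebra.T hl hlN hlS) = h23mT N l :=
  (h23mPsi_isMat N S hNS _).mat_unique (h23mT_isMat N hl hlN)

/-- **(M6)** `Ψ` is injective: a relation between the matrices is a relation in the Hecke
algebra. -/
theorem h23mPsi_injective (S : Set ℕ) (hNS : ∀ q : ℕ, q.Prime → q ∣ N → q ∈ S) :
    Function.Injective (h23mPsi N S hNS) := by
  intro T T' h
  apply Subtype.ext
  have h1 := h23mPsi_isMat N S hNS T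
  rw [h] at h1
  exact h1.op_unique (h23mPsi_isMat N S hNS T')

end Fermat.Agent.S30x.Ev.H23
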