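import Fermat.Agent.S30x.Ev.H23_MatPsi

/-!
# W8 (S30) / W9 (S31), shared leaf (MAT), part 3 (helper23): saturation

`Ψ = h23mPsi N S hNS : heckeAlgebra N 2 S →+* Matrix _ _ ℤ` is injective; by the Artin–Rees
lemma its image is "saturated up to a constant":

* `h23m_saturation` (M7): for every `p` there is `c` such that, for all `k`, an element `T` of the
  Hecke algebra whose matrix is divisible by `p ^ (k + c)` is divisible by `p ^ k` in the Hecke
  algebra;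
* `h23mPsi_eval₂` : `Ψ` commutes with the evaluation of integer polynomials;
* `h23m_hc_eval₂`, `h23m_hc_dickson` : the form consumed by (HC) of W9: if
  `Q(t_ℓ) - Q'(t_ℓ')` is divisible by `p ^ (k + c)` then `Q(T_ℓ) - Q'(T_ℓ') ∈ (p ^ k)`.
-/

set_option autoImplicit false
set_option linter.style.haveILetI false

noncomputable section

namespace Fermat.Agent.S30x.Ev.H23

open CongruenceSubgroup Polynomial

variable (N : ℕ) [NeZero N]

/-- **(M7)** saturation of the Hecke algebra inside the integer matrices. -/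
theorem h23m_saturation (S : Set ℕ) (hNS : ∀ q : ℕ, q.Prime → q ∣ N → q ∈ S) (p : ℕ) :
    ∃ c : ℕ, ∀ (k : ℕ) (T : CuspForm.heckeAlgebra N 2 S),
      (∀ a b, ((p : ℤ) ^ (k + c)) ∣ h23mPsi N S hNS T a b) →
      ∃ T' : CuspForm.heckeAlgebra N 2 S,
        T = ((p : ℕ) : CuspForm.heckeAlgebra N 2 S) ^ k * T' := by
  classical
  let L : CuspForm.heckeAlgebra N 2 S →ₗ[ℤ] Matrix (Fin (h23mRank N)) (Fin (h23mRank N)) ℤ :=
    (h23mPsi N S hNS).toAddMonoidHom.toIntLinearMap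
  have hL : ∀ T, L T = h23mPsi N S hNS T := fun _ => rfl
  obtain ⟨c, hc⟩ := Ideal.exists_pow_inf_eq_pow_smul (Ideal.span {(p : ℤ)}) (LinearMap.range L)
  refine ⟨c, fun k T hT => ?_⟩
  -- the matrix of `T` lies in `p ^ (k + c) • ⊤`
  have h1 : L T ∈ (Ideal.span {(p : ℤ)} ^ (k + c) •
      (⊤ : Submodule ℤ (Matrix (Fin (h23mRank N)) (Fin (h23mRank N)) ℤ))) := by
    have h2 : L T = ((p : ℤ) ^ (k + c)) •
        (Matrix.of fun a b => h23mPsi N S hNS T a b / (p : ℤ) ^ (k + c)) := by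
      ext a b
      rw [hL, Matrix.smul_apply, Matrix.of_apply, smul_eq_mul, Int.mul_ediv_cancel' (hT a b)]
    rw [h2]
    exact Submodule.smul_mem_smul
      (Ideal.pow_mem_pow (Ideal.mem_span_singleton_self _) _) Submodule.mem_top
  have h3 : L T ∈ (Ideal.span {(p : ℤ)} ^ (k + c) •
      (⊤ : Submodule ℤ (Matrix (Fin (h23mRank N)) (Fin (h23mRank N)) ℤ))) ⊓ LinearMap.range L :=
    ⟨h1, LinearMap.mem_range_self L T⟩
  rw [hc (k + c) (Nat.le_add_left c k), Nat.add_sub_cancel] at h3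
  have h4 : L T ∈ Ideal.span {(p : ℤ)} ^ k • LinearMap.range L :=
    Submodule.smul_mono (le_refl _) inf_le_right h3
  rw [Ideal.span_singleton_pow, Submodule.ideal_span_singleton_smul] at h4
  obtain ⟨M', hM', hM'eq⟩ := h4
  obtain ⟨T', rfl⟩ := hM'
  refine ⟨T', h23mPsi_injective N S hNS ?_⟩
  rw [map_mul, map_pow, map_natCast]
  have h5 : ((p : ℤ) ^ k) • L T' = L T := hM'eq
  rw [hL, hL] at h5
  rw [← h5]
  ext a b
  rw [Matrix.smul_apply, smul_eq_mul]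
  have h6 : (((p : ℕ) : Matrix (Fin (h23mRank N)) (Fin (h23mRank N)) ℤ) ^ k)
      = ((p : ℤ) ^ k) • (1 : Matrix (Fin (h23mRank N)) (Fin (h23mRank N)) ℤ) := by
    rw [← Nat.cast_pow, ← Nat.cast_pow]
    ext i j
    rw [Matrix.smul_apply, smul_eq_mul]
    by_cases hij : i = j
    · subst hij
      simp [Matrix.natCast_apply]
    · simp [Matrix.natCast_apply, hij]
  rw [h6, Matrix.smul_mul, one_mul, Matrix.smul_apply, smul_eq_mul]

/-- (M7), ideal form. -/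
theorem h23m_saturation_span (S : Set ℕ) (hNS : ∀ q : ℕ, q.Prime → q ∣ N → q ∈ S) (p : ℕ) :
    ∃ c : ℕ, ∀ (k : ℕ) (T : CuspForm.heckeAlgebra N 2 S),
      (∀ a b, ((p : ℤ) ^ (k + c)) ∣ h23mPsi N S hNS T a b) →
      T ∈ Ideal.span {((p : ℕ) : CuspForm.heckeAlgebra N 2 S) ^ k} := by
  obtain ⟨c, hc⟩ := h23m_saturation N S hNS p
  refine ⟨c, fun k T hT => ?_⟩
  obtain ⟨T', rfl⟩ := hc k T hT
  exact Ideal.mul_mem_right _ _ (Ideal.mem_span_singleton_self _)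

/-- `Ψ` commutes with the evaluation of integer polynomials. -/
theorem h23mPsi_eval₂ (S : Set ℕ) (hNS : ∀ q : ℕ, q.Prime → q ∣ N → q ∈ S)
    (T : CuspForm.heckeAlgebra N 2 S) (Q : ℤ[X]) :
    h23mPsi N S hNS (Q.eval₂ (Int.castRingHom _) T)
      = Q.eval₂ (Int.castRingHom _) (h23mPsi N S hNS T) := by
  rw [Polynomial.hom_eval₂]
  congr 1
  exact RingHom.ext_int _ _

/-- **(M7), the form for (HC)**: polynomial congruences between the matrices `t_ℓ` descend to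
the Hecke algebra. -/
theorem h23m_hc_eval₂ (S : Set ℕ) (hNS : ∀ q : ℕ, q.Prime → q ∣ N → q ∈ S) (p : ℕ) :
    ∃ c : ℕ, ∀ (k : ℕ) (Q Q' : ℤ[X]) (l : ℕ) (hl : l.Prime) (hlN : ¬ l ∣ N) (hlS : l ∉ S)
      (l' : ℕ) (hl' : l'.Prime) (hl'N : ¬ l' ∣ N) (hl'S : l' ∉ S),
      (∀ a b, ((p : ℤ) ^ (k + c)) ∣
        (Q.eval₂ (Int.castRingHom _) (h23mT N l)
          - Q'.eval₂ (Int.castRingHom _) (h23mT N l')) a b) →
      Q.eval₂ (Int.castRingHom _) (CuspForm.heckeAlgebra.T hl hlN hlS)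
          - Q'.eval₂ (Int.castRingHom _) (CuspForm.heckeAlgebra.T hl' hl'N hl'S)
        ∈ Ideal.span {((p : ℕ) : CuspForm.heckeAlgebra N 2 S) ^ k} := by
  obtain ⟨c, hc⟩ := h23m_saturation_span N S hNS p
  refine ⟨c, fun k Q Q' l hl hlN hlS l' hl' hl'N hl'S h => hc k _ ?_⟩
  rw [map_sub, h23mPsi_eval₂, h23mPsi_eval₂, h23mPsi_T, h23mPsi_T]
  exact h

/-- **(M7), Dickson form** (the spelling of `StHC`). -/
theorem h23m_hc_dickson (S : Set ℕ) (hNS : ∀ q : ℕ, q.Prime → q ∣ N → q ∈ S) (p : ℕ) :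
    ∃ c : ℕ, ∀ (k j j' : ℕ) (l : ℕ) (hl : l.Prime) (hlN : ¬ l ∣ N) (hlS : l ∉ S)
      (l' : ℕ) (hl' : l'.Prime) (hl'N : ¬ l' ∣ N) (hl'S : l' ∉ S),
      (∀ a b, ((p : ℤ) ^ (k + c)) ∣
        ((Polynomial.dickson 1 (l : ℤ) j).eval₂ (Int.castRingHom _) (h23mT N l)
          - (Polynomial.dickson 1 (l' : ℤ) j').eval₂ (Int.castRingHom _) (h23mT N l')) a b) →
      (Polynomial.dickson 1 ((l : ℕ) : CuspForm.heckeAlgebra N 2 S) j).eval
            (CuspForm.heckeAlgebra.T hl hlN hlS)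
          - (Polynomial.dickson 1 ((l' : ℕ) : CuspForm.heckeAlgebra N 2 S) j').eval
            (CuspForm.heckeAlgebra.T hl' hl'N hl'S)
        ∈ Ideal.span {((p : ℕ) : CuspForm.heckeAlgebra N 2 S) ^ k} := by
  obtain ⟨c, hc⟩ := h23m_hc_eval₂ N S hNS p
  refine ⟨c, fun k j j' l hl hlN hlS l' hl' hl'N hl'S h => ?_⟩
  have h1 := hc k (Polynomial.dickson 1 (l : ℤ) j) (Polynomial.dickson 1 (l' : ℤ) j')
    l hl hlN hlS l' hl' hl'N hl'S h
  have h2 : ∀ (m i : ℕ) (x : CuspForm.heckeAlgebra N 2 S),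
      (Polynomial.dickson 1 (m : ℤ) i).eval₂ (Int.castRingHom _) x
        = (Polynomial.dickson 1 ((m : ℕ) : CuspForm.heckeAlgebra N 2 S) i).eval x := by
    intro m i x
    rw [← Polynomial.eval_map, Polynomial.map_dickson]
    simp
  rw [h2, h2] at h1
  exact h1

end Fermat.Agent.S30x.Ev.H23
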