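import Mathlib

/-!
# W8 (EV-b): common eigenvectors for a character of a commutative ring of integer matrices
(helper27)

* `exists_eigen_functional` : `B` a commutative ring, `L` a finitely generated faithful
  `B`-module, `θ : B →+* E` a ring homomorphism to a field: there is a non-zero additive map
  `φ : L → E` with `φ (s • v) = θ s * φ v` (Nakayama at the prime `ker θ`).
* `exists_eigenvector_matrix` : `B` a commutative subring of `Matrix (Fin d) (Fin d) ℤ`,
  `θ : B →+* E`: a non-zero `w : Fin d → E` with `∑ j, s i j * w j = θ s * w i` for all `s ∈ B`.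
* `exists_primitive_eigenvector` : the same with values in a valuation ring `O`, `w` primitive
  (one coordinate equal to `1`).
-/

set_option autoImplicit false
set_option linter.unusedSectionVars false
set_option linter.unusedVariables false
set_option linter.style.haveILetI false

open TensorProduct

noncomputable section

namespace Fermat.Agent.S30x.Ev.H27

/-- **Eigen-functional.** A character of a commutative ring acting faithfully on a finitely
generated module occurs in the module (dually). -/
theorem exists_eigen_functional {B : Type*} [CommRing B] {L : Type*} [AddCommGroup L]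
    [Module B L] [Module.Finite B L] (hfaith : Module.annihilator B L = ⊥)
    {E : Type*} [Field E] (θ : B →+* E) :
    ∃ φ : L →+ E, φ ≠ 0 ∧ ∀ (s : B) (v : L), φ (s • v) = θ s * φ v := by
  classical
  let P : Ideal B := RingHom.ker θ
  haveI hP : P.IsPrime := RingHom.ker_isPrime θ
  let pp : PrimeSpectrum B := ⟨P, hP⟩
  have hsupp : pp ∈ Module.support B L := by
    rw [Module.mem_support_iff_of_finite, hfaith]
    exact bot_le
  have hnt : Nontrivial (P.ResidueField ⊗[B] L) :=
    (Module.mem_support_iff_nontrivial_residueField_tensorProduct pp).mp hsupp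
  obtain ⟨x, hx⟩ := exists_ne (0 : P.ResidueField ⊗[B] L)
  obtain ⟨ψ, hψ⟩ : ∃ ψ : Module.Dual P.ResidueField (P.ResidueField ⊗[B] L), ψ x ≠ 0 := by
    by_contra h
    push Not at h
    exact hx ((Module.forall_dual_apply_eq_zero_iff P.ResidueField x).mp h)
  let ι : P.ResidueField →+* E := Ideal.ResidueField.lift P θ le_rfl (by
    intro b hb
    have hb' : θ b ≠ 0 := fun h0 => hb (RingHom.mem_ker.mpr h0)
    exact IsUnit.mk0 _ hb')
  have hι : ∀ b : B, ι (algebraMap B P.ResidueField b) = θ b := fun b =>
    Ideal.ResidueField.lift_algebraMap P θ le_rfl _ b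
  let φ : L →+ E :=
    { toFun := fun v => ι (ψ ((1 : P.ResidueField) ⊗ₜ[B] v))
      map_zero' := by simp
      map_add' := fun v w => by simp [TensorProduct.tmul_add] }
  have hφ : ∀ v, φ v = ι (ψ ((1 : P.ResidueField) ⊗ₜ[B] v)) := fun v => rfl
  refine ⟨φ, ?_, ?_⟩
  · intro h0
    apply hψ
    clear_value φ
    have hz : ∀ v : L, ψ ((1 : P.ResidueField) ⊗ₜ[B] v) = 0 := fun v => by
      have h1 : φ v = 0 := by rw [h0]; rfl
      rw [hφ] at h1
      exact (map_eq_zero ι).mp h1
    have hall : ∀ y : P.ResidueField ⊗[B] L, ψ y = 0 := by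
      intro y
      induction y using TensorProduct.induction_on with
      | zero => simp
      | tmul a v =>
        have h2 : a ⊗ₜ[B] v = a • ((1 : P.ResidueField) ⊗ₜ[B] v) := by
          rw [TensorProduct.smul_tmul', smul_eq_mul, mul_one]
        rw [h2, map_smul, hz, smul_zero]
      | add a b ha hb => rw [map_add, ha, hb, add_zero]
    exact hall x
  · intro s v
    rw [hφ, hφ, ← hι s, ← map_mul]
    congr 1
    have h3 : (1 : P.ResidueField) ⊗ₜ[B] (s • v) =
        (algebraMap B P.ResidueField s) • ((1 : P.ResidueField) ⊗ₜ[B] v) := by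
      rw [TensorProduct.smul_tmul', smul_eq_mul, mul_one, ← TensorProduct.smul_tmul,
        Algebra.smul_def, mul_one]
    rw [h3, map_smul, smul_eq_mul]

section Matrix

variable {B : Type*} [CommRing B] {d : ℕ} (m : B →+* Matrix (Fin d) (Fin d) ℤ)

/-- The transposed representation (a ring homomorphism because `B` is commutative). -/
def transposeHom : B →+* Matrix (Fin d) (Fin d) ℤ where
  toFun s := (m s).transpose
  map_one' := by rw [map_one, Matrix.transpose_one]
  map_mul' a b := by rw [mul_comm a b, map_mul, Matrix.transpose_mul]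
  map_zero' := by rw [map_zero, Matrix.transpose_zero]
  map_add' a b := by rw [map_add, Matrix.transpose_add]

/-- The action of `B` on `ℤ^d` through the transposed matrices. -/
def actHom : B →+* Module.End ℤ (Fin d → ℤ) :=
  ((Matrix.toLinAlgEquiv' : Matrix (Fin d) (Fin d) ℤ ≃ₐ[ℤ] _) : _ →+* _).comp (transposeHom m)

theorem actHom_apply (s : B) (v : Fin d → ℤ) :
    actHom m s v = (m s).transpose.mulVec v := rfl

theorem actHom_single (s : B) (i : Fin d) :
    actHom m s (Pi.single i 1) = fun k => m s i k := by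
  rw [actHom_apply]
  funext k
  rw [Matrix.mulVec_single_one]
  rfl

/-- **Common eigenvector of a commutative ring of integer matrices**, for a character with
values in a field. -/
theorem exists_eigenvector_matrix (hm : Function.Injective m) {E : Type*} [Field E]
    (θ : B →+* E) :
    ∃ w : Fin d → E, w ≠ 0 ∧ ∀ (s : B) (i : Fin d), ∑ j, ((m s i j : ℤ) : E) * w j = θ s * w i := by
  classical
  letI modB : Module B (Fin d → ℤ) := Module.compHom (Fin d → ℤ) (actHom m)
  have hsmul : ∀ (s : B) (v : Fin d → ℤ), s • v = actHom m s v := fun s v => rfl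
  haveI : IsScalarTower ℤ B (Fin d → ℤ) := ⟨fun n b v => by
    rw [hsmul, hsmul, map_zsmul, LinearMap.smul_apply]⟩
  haveI : Module.Finite B (Fin d → ℤ) := Module.Finite.of_restrictScalars_finite ℤ B _
  have hfaith : Module.annihilator B (Fin d → ℤ) = ⊥ := by
    rw [eq_bot_iff]
    intro s hs
    rw [Module.mem_annihilator] at hs
    rw [Submodule.mem_bot]
    apply hm
    rw [map_zero]
    ext i k
    have h1 := hs (Pi.single i 1)
    rw [hsmul, actHom_single] at h1
    exact congrFun h1 k
  obtain ⟨φ, hφ0, hφ⟩ := exists_eigen_functional (B := B) (L := Fin d → ℤ) hfaith θ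
  have hexp : ∀ v : Fin d → ℤ, φ v = ∑ j, ((v j : ℤ) : E) * φ (Pi.single j 1) := by
    intro v
    have hv : v = ∑ j, (v j) • (Pi.single j (1 : ℤ) : Fin d → ℤ) := by
      funext k
      simp [Finset.sum_apply, Pi.single_apply]
    conv_lhs => rw [hv]
    rw [map_sum]
    refine Finset.sum_congr rfl fun j _ => ?_
    rw [map_zsmul, zsmul_eq_mul]
  refine ⟨fun j => φ (Pi.single j 1), ?_, ?_⟩
  · intro hw
    apply hφ0
    apply DFunLike.ext
    intro v
    rw [hexp v]
    simp only [AddMonoidHom.zero_apply]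
    refine Finset.sum_eq_zero fun j _ => ?_
    have := congrFun hw j
    simp only [Pi.zero_apply] at this
    rw [this, mul_zero]
  · intro s i
    have h1 := hφ s (Pi.single i 1)
    rw [hsmul, actHom_single, hexp] at h1
    exact h1

/-- **Primitive common eigenvector** with values in a valuation ring `O ⊆ E`. -/
theorem exists_primitive_eigenvector (hm : Function.Injective m) {E : Type*} [Field E]
    (O : ValuationSubring E) (θ : B →+* O) :
    ∃ w : Fin d → O, (∃ j, w j = 1) ∧
      ∀ (s : B) (i : Fin d), ∑ j, ((m s i j : ℤ) : O) * w j = θ s * w i := by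
  classical
  obtain ⟨w, hw0, hw⟩ := exists_eigenvector_matrix m hm (O.subtype.comp θ)
  -- scale
  have hne : ∃ k, w k ≠ 0 := by
    by_contra h
    apply hw0
    funext k
    by_contra hk
    exact h ⟨k, hk⟩
  obtain ⟨k₁, hk₁⟩ := hne
  have : Nonempty (Fin d) := ⟨k₁⟩
  obtain ⟨k₀, -, hmax⟩ := Finset.exists_max_image Finset.univ (fun k => O.valuation (w k))
    Finset.univ_nonempty
  have hk₀ : w k₀ ≠ 0 := by
    intro h0
    have := hmax k₁ (Finset.mem_univ _)
    rw [h0, map_zero, le_zero_iff, map_eq_zero] at this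
    exact hk₁ this
  have hmem : ∀ k, (w k₀)⁻¹ * w k ∈ O := by
    intro k
    rw [← ValuationSubring.valuation_le_one_iff, map_mul, map_inv₀]
    have h1 := hmax k (Finset.mem_univ _)
    have h2 : O.valuation (w k₀) ≠ 0 := by
      rw [ne_eq, map_eq_zero]
      exact hk₀
    calc (O.valuation (w k₀))⁻¹ * O.valuation (w k)
        ≤ (O.valuation (w k₀))⁻¹ * O.valuation (w k₀) := by gcongr
      _ = 1 := inv_mul_cancel₀ h2
  refine ⟨fun k => ⟨(w k₀)⁻¹ * w k, hmem k⟩, ⟨k₀, Subtype.ext (inv_mul_cancel₀ hk₀)⟩, ?_⟩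
  intro s i
  apply Subtype.ext
  have h1 := hw s i
  simp only [RingHom.comp_apply, ValuationSubring.subtype_apply] at h1
  push_cast
  calc ∑ j, ((m s i j : ℤ) : E) * ((w k₀)⁻¹ * w j)
      = (w k₀)⁻¹ * ∑ j, ((m s i j : ℤ) : E) * w j := by
        rw [Finset.mul_sum]
        refine Finset.sum_congr rfl fun j _ => ?_
        ring
    _ = (θ s : E) * ((w k₀)⁻¹ * w i) := by rw [h1]; ring

/-- **Common eigenvector, kernel form**: `τ` need not be injective, only `ker τ ⊆ ker χ`. -/
theorem exists_eigenvector_of_ker {R : Type*} [CommRing R] {d : ℕ}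
    (τ : R →+* Matrix (Fin d) (Fin d) ℤ) {E : Type*} [Field E] (χ : R →+* E)
    (hker : ∀ r, τ r = 0 → χ r = 0) :
    ∃ w : Fin d → E, w ≠ 0 ∧
      ∀ (r : R) (i : Fin d), ∑ j, ((τ r i j : ℤ) : E) * w j = χ r * w i := by
  classical
  let θ : R ⧸ RingHom.ker τ →+* E :=
    Ideal.Quotient.lift (RingHom.ker τ) χ (fun r hr => hker r (RingHom.mem_ker.mp hr))
  obtain ⟨w, hw0, hw⟩ := exists_eigenvector_matrix (RingHom.kerLift τ)
    (RingHom.kerLift_injective τ) θ
  refine ⟨w, hw0, fun r i => ?_⟩
  have h1 := hw (Ideal.Quotient.mk (RingHom.ker τ) r) i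
  simp only [RingHom.kerLift_mk] at h1
  rw [h1]
  congr 1

/-- **Primitive common eigenvector** with values in a valuation ring `O` (abstract form):
one coordinate is equal to `1`. -/
theorem exists_primitive_eigenvector_of_ker {R : Type*} [CommRing R] {d : ℕ}
    (τ : R →+* Matrix (Fin d) (Fin d) ℤ) {O : Type*} [CommRing O] [IsDomain O]
    [ValuationRing O] (χ : R →+* O) (hker : ∀ r, τ r = 0 → χ r = 0) :
    ∃ w : Fin d → O, (∃ j, w j = 1) ∧
      ∀ (r : R) (i : Fin d), ∑ j, ((τ r i j : ℤ) : O) * w j = χ r * w i := by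
  classical
  let E := FractionRing O
  have hinj : Function.Injective (algebraMap O E) := IsFractionRing.injective O E
  obtain ⟨w, hw0, hw⟩ := exists_eigenvector_of_ker τ ((algebraMap O E).comp χ) (by
    intro r hr
    rw [RingHom.comp_apply, hker r hr, map_zero])
  have hne : ∃ k, w k ≠ 0 := by
    by_contra h
    apply hw0
    funext k
    by_contra hk
    exact h ⟨k, hk⟩
  obtain ⟨k₁, hk₁⟩ := hne
  have : Nonempty (Fin d) := ⟨k₁⟩
  let v := ValuationRing.valuation O E
  obtain ⟨k₀, -, hmax⟩ := Finset.exists_max_image Finset.univ (fun k => v (w k))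
    Finset.univ_nonempty
  have hk₀ : w k₀ ≠ 0 := by
    intro h0
    have := hmax k₁ (Finset.mem_univ _)
    rw [h0, map_zero, le_zero_iff, map_eq_zero] at this
    exact hk₁ this
  have hmem : ∀ k, ∃ a : O, algebraMap O E a = (w k₀)⁻¹ * w k := by
    intro k
    rw [← ValuationRing.mem_integer_iff, Valuation.mem_integer_iff, map_mul, map_inv₀]
    have h1 := hmax k (Finset.mem_univ _)
    have h2 : v (w k₀) ≠ 0 := by
      rw [ne_eq, map_eq_zero]
      exact hk₀
    calc (v (w k₀))⁻¹ * v (w k)
        ≤ (v (w k₀))⁻¹ * v (w k₀) := by gcongr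
      _ = 1 := inv_mul_cancel₀ h2
  choose u hu using hmem
  refine ⟨u, ⟨k₀, ?_⟩, ?_⟩
  · apply hinj
    rw [hu, map_one, inv_mul_cancel₀ hk₀]
  · intro r i
    apply hinj
    have h1 := hw r i
    simp only [RingHom.comp_apply] at h1
    rw [map_sum, map_mul, hu]
    simp only [map_mul, map_intCast, hu]
    calc ∑ j, ((τ r i j : ℤ) : E) * ((w k₀)⁻¹ * w j)
        = (w k₀)⁻¹ * ∑ j, ((τ r i j : ℤ) : E) * w j := by
          rw [Finset.mul_sum]
          refine Finset.sum_congr rfl fun j _ => ?_
          ring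
      _ = algebraMap O E (χ r) * ((w k₀)⁻¹ * w i) := by rw [h1]; ring

/-- **Primitive common eigenvector in a discrete valuation ring** (some coordinate is a
unit). -/
theorem exists_unit_eigenvector_dvr {R : Type*} [CommRing R] {d : ℕ}
    (τ : R →+* Matrix (Fin d) (Fin d) ℤ) {O : Type*} [CommRing O] [IsDomain O]
    [IsDiscreteValuationRing O] (χ : R →+* O) (hker : ∀ r, τ r = 0 → χ r = 0) :
    ∃ w : Fin d → O, (∃ j, IsUnit (w j)) ∧
      ∀ (r : R) (i : Fin d), ∑ j, ((τ r i j : ℤ) : O) * w j = χ r * w i := by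
  obtain ⟨w, ⟨j, hj⟩, hw⟩ := exists_primitive_eigenvector_of_ker τ χ hker
  exact ⟨w, ⟨j, hj ▸ isUnit_one⟩, hw⟩

theorem transposeHom_apply (s : B) (i j : Fin d) : transposeHom m s i j = m s j i := rfl

theorem transposeHom_eq_zero_iff (s : B) : transposeHom m s = 0 ↔ m s = 0 := by
  constructor
  · intro h
    ext i j
    have := congrFun (congrFun h j) i
    exact this
  · intro h
    ext i j
    have := congrFun (congrFun h j) i
    exact this

/-- The transposed (left-eigenvector) form of `exists_eigenvector_of_ker`. -/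
theorem exists_left_eigenvector_of_ker {R : Type*} [CommRing R] {d : ℕ}
    (τ : R →+* Matrix (Fin d) (Fin d) ℤ) {E : Type*} [Field E] (χ : R →+* E)
    (hker : ∀ r, τ r = 0 → χ r = 0) :
    ∃ w : Fin d → E, w ≠ 0 ∧
      ∀ (r : R) (j : Fin d), ∑ i, ((τ r i j : ℤ) : E) * w i = χ r * w j :=
  exists_eigenvector_of_ker (transposeHom τ) χ
    (fun r hr => hker r ((transposeHom_eq_zero_iff τ r).mp hr))

/-- The transposed (left-eigenvector) form of `exists_primitive_eigenvector_of_ker`. -/
theorem exists_primitive_left_eigenvector_of_ker {R : Type*} [CommRing R] {d : ℕ}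
    (τ : R →+* Matrix (Fin d) (Fin d) ℤ) {O : Type*} [CommRing O] [IsDomain O]
    [ValuationRing O] (χ : R →+* O) (hker : ∀ r, τ r = 0 → χ r = 0) :
    ∃ w : Fin d → O, (∃ j, w j = 1) ∧
      ∀ (r : R) (j : Fin d), ∑ i, ((τ r i j : ℤ) : O) * w i = χ r * w j :=
  exists_primitive_eigenvector_of_ker (transposeHom τ) χ
    (fun r hr => hker r ((transposeHom_eq_zero_iff τ r).mp hr))

end Matrix

end Fermat.Agent.S30x.Ev.H27
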